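import Fermat.Agent.Corollaries.ThreeSq.Main

/-!
# Consequences of the three squares theorem (helper56)

* `sum_three_squares_nat_iff`, `sum_three_squares_rat_iff`: the theorem over `ℕ` and over `ℚ`;
* `exists_three_triangular`: **Gauss**: every natural number is a sum of three triangular numbers;
* `exists_sq_add_sq_add_triangular`, `exists_sq_add_triangular_add_triangular`,
  `exists_sq_add_sq_add_pronic`: other universal sums;
* `sq_add_sq_add_two_mul_sq_iff`: the numbers `x² + y² + 2z²`, in particular all odd numbers;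
* `exists_four_squares_two_pow`: Lagrange's theorem with one square `0` or a power of `4`;
* `universal_iff`: `x² + y² + z² + d w²` represents all natural numbers iff `1 ≤ d ≤ 7`.
-/

set_option autoImplicit false

namespace Fermat.Agent.Cor.ThreeSq

/-- The three squares theorem for natural numbers. -/
theorem sum_three_squares_nat_iff {n : ℕ} :
    (∃ x y z : ℕ, x ^ 2 + y ^ 2 + z ^ 2 = n) ↔ ∀ a b : ℕ, n ≠ 4 ^ a * (8 * b + 7) := by
  rw [← sum_three_squares_iff]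
  constructor
  · rintro ⟨x, y, z, h⟩
    exact ⟨x, y, z, by exact_mod_cast h⟩
  · rintro ⟨x, y, z, h⟩
    refine ⟨x.natAbs, y.natAbs, z.natAbs, ?_⟩
    zify
    rw [sq_abs, sq_abs, sq_abs, h]

/-- If `4 ∤ n`, then `n` is a sum of three squares iff `n ≢ 7` modulo `8`. -/
theorem iff_of_not_four_dvd {n : ℕ} (h4 : ¬ 4 ∣ n) :
    (∃ x y z : ℤ, x ^ 2 + y ^ 2 + z ^ 2 = (n : ℤ)) ↔ n % 8 ≠ 7 := by
  constructor
  · rintro ⟨x, y, z, h⟩ h8
    have h1 := sq_emod_eight x
    have h2 := sq_emod_eight y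
    have h3 := sq_emod_eight z
    omega
  · intro h8
    obtain ⟨x, y, z, h, -⟩ := exists_sq_of_mod (by omega) h8
    exact ⟨x, y, z, h⟩

/-- A prime number is a sum of three squares iff it is not `≡ 7` modulo `8`. -/
theorem prime_iff {p : ℕ} (hp : p.Prime) :
    (∃ x y z : ℤ, x ^ 2 + y ^ 2 + z ^ 2 = (p : ℤ)) ↔ p % 8 ≠ 7 := by
  refine iff_of_not_four_dvd fun h => ?_
  have h2 : 2 ∣ p := Dvd.dvd.trans (by norm_num) h
  rcases (Nat.dvd_prime hp).1 h2 with h3 | h3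
  · omega
  · rw [← h3] at h
    omega

/-! ### Rational numbers -/

/-- Multiplication by a square does not change the exceptional numbers. -/
theorem exc_mul_sq_iff {n d : ℕ} (hd : d ≠ 0) :
    (∃ a b : ℕ, n * d ^ 2 = 4 ^ a * (8 * b + 7)) ↔ ∃ a b : ℕ, n = 4 ^ a * (8 * b + 7) := by
  constructor
  · rintro ⟨a, b, h⟩
    by_contra hc
    push Not at hc
    obtain ⟨x, y, z, hx⟩ := sum_three_squares_iff.2 hc
    refine sum_three_squares_iff.1 ⟨d * x, d * y, d * z, ?_⟩ a b h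
    push_cast
    rw [← hx]
    ring
  · rintro ⟨a, b, rfl⟩
    obtain ⟨s, t, ⟨k, rfl⟩, rfl⟩ := Nat.exists_eq_two_pow_mul_odd hd
    obtain ⟨u, hu⟩ : 2 ∣ k * (k + 1) := (Nat.even_mul_succ_self k).two_dvd
    refine ⟨a + s, 8 * b * u + b + 7 * u, ?_⟩
    have h1 : (2 * k + 1) ^ 2 = 8 * u + 1 := by
      have : (2 * k + 1) ^ 2 = 4 * (k * (k + 1)) + 1 := by ring
      rw [this, hu]
      ring
    rw [mul_pow, h1, ← pow_mul, mul_comm s 2, pow_mul, pow_add]
    norm_num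
    ring

/-- **The three squares theorem over `ℚ`**: the rational number `q = u / v` (in lowest terms) is a
sum of three rational squares if and only if `q ≥ 0` and `u v` is not of the form
`4 ^ a * (8 * b + 7)`. -/
theorem sum_three_squares_rat_iff {q : ℚ} :
    (∃ x y z : ℚ, x ^ 2 + y ^ 2 + z ^ 2 = q) ↔
      0 ≤ q ∧ ∀ a b : ℕ, q.num.natAbs * q.den ≠ 4 ^ a * (8 * b + 7) := by
  have hN : 0 ≤ q → ((q.num.natAbs * q.den : ℕ) : ℚ) = q * (q.den : ℚ) ^ 2 := by
    intro hq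
    have h2 : ((q.num.natAbs : ℕ) : ℚ) = (q.num : ℚ) := by
      rw [Nat.cast_natAbs, abs_of_nonneg (Rat.num_nonneg.2 hq)]
    rw [Nat.cast_mul, h2, ← Rat.mul_den_eq_num]
    ring
  constructor
  · rintro ⟨x, y, z, h⟩
    have hq : 0 ≤ q := by rw [← h]; positivity
    refine ⟨hq, fun a b hab => ?_⟩
    set D : ℕ := x.den * y.den * z.den with hD
    have hD0 : D ≠ 0 := mul_ne_zero (mul_ne_zero x.den_nz y.den_nz) z.den_nz
    obtain ⟨a', b', h'⟩ := (exc_mul_sq_iff (n := q.num.natAbs * q.den) hD0).2 ⟨a, b, hab⟩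
    refine sum_three_squares_iff.1 ⟨q.den * (x.num * y.den * z.den),
      q.den * (y.num * z.den * x.den), q.den * (z.num * x.den * y.den), ?_⟩ a' b' h'
    have key : ∀ r s t : ℚ, ((q.den * (r.num * s.den * t.den) : ℤ) : ℚ) =
        q.den * (r * (r.den * s.den * t.den)) := by
      intro r s t
      push_cast
      rw [← Rat.mul_den_eq_num]
      ring
    have hx := key x y z
    have hy := key y z x
    have hz := key z x y
    have h3 : (((q.den * (x.num * y.den * z.den)) ^ 2 + (q.den * (y.num * z.den * x.den)) ^ 2 +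
        (q.den * (z.num * x.den * y.den)) ^ 2 : ℤ) : ℚ) =
        (((q.num.natAbs * q.den * D ^ 2 : ℕ) : ℤ) : ℚ) := by
      rw [Int.cast_natCast, Nat.cast_mul, hN hq, Int.cast_add, Int.cast_add, Int.cast_pow,
        Int.cast_pow, Int.cast_pow, hx, hy, hz, hD]
      push_cast
      linear_combination ((q.den : ℚ) ^ 2 * ((x.den : ℚ) * y.den * z.den) ^ 2) * h
    exact_mod_cast h3
  · rintro ⟨hq, h⟩
    obtain ⟨x, y, z, hx⟩ := sum_three_squares_iff.2 h
    have hd : (q.den : ℚ) ≠ 0 := by exact_mod_cast q.den_nz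
    have h1 : (x : ℚ) ^ 2 + (y : ℚ) ^ 2 + (z : ℚ) ^ 2 = q * (q.den : ℚ) ^ 2 := by
      have h2 := congrArg (Int.cast : ℤ → ℚ) hx
      rw [Int.cast_natCast, hN hq] at h2
      rw [← h2]
      push_cast
      ring
    refine ⟨x / q.den, y / q.den, z / q.den, ?_⟩
    rw [div_pow, div_pow, div_pow, ← add_div, ← add_div, h1]
    field_simp

/-- A natural number which is a sum of three rational squares is a sum of three integer squares. -/
theorem rat_iff_int {n : ℕ} : (∃ x y z : ℚ, x ^ 2 + y ^ 2 + z ^ 2 = n) ↔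
    ∃ x y z : ℤ, x ^ 2 + y ^ 2 + z ^ 2 = (n : ℤ) := by
  rw [sum_three_squares_rat_iff, sum_three_squares_iff]
  simp

/-! ### Triangular numbers -/

/-- Parity of the terms of a sum of three squares `≡ 3` modulo `4`. -/
theorem odd_of_mod_four {x y z : ℤ} (h : (x ^ 2 + y ^ 2 + z ^ 2) % 4 = 3) :
    Odd x ∧ Odd y ∧ Odd z := by
  have key : ∀ a : ℤ, (a % 2 = 0 ∧ a ^ 2 % 4 = 0) ∨ (a % 2 = 1 ∧ a ^ 2 % 4 = 1) := by
    intro a
    have h : a % 4 = 0 ∨ a % 4 = 1 ∨ a % 4 = 2 ∨ a % 4 = 3 := by omega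
    rcases h with h | h | h | h
    · exact Or.inl ⟨by omega, by simp [sq, Int.mul_emod, h]⟩
    · exact Or.inr ⟨by omega, by simp [sq, Int.mul_emod, h]⟩
    · exact Or.inl ⟨by omega, by simp [sq, Int.mul_emod, h]⟩
    · exact Or.inr ⟨by omega, by simp [sq, Int.mul_emod, h]⟩
  have h1 := key x
  have h2 := key y
  have h3 := key z
  rw [Int.odd_iff, Int.odd_iff, Int.odd_iff]
  omega

/-- In a sum of three squares `≡ 1` modulo `4` exactly one term is odd; we name it `x`. -/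
theorem exists_odd_even_even {n : ℤ} (h4 : n % 4 = 1)
    (h : ∃ x y z : ℤ, x ^ 2 + y ^ 2 + z ^ 2 = n) :
    ∃ x y z : ℤ, (2 * x + 1) ^ 2 + (2 * y) ^ 2 + (2 * z) ^ 2 = n := by
  obtain ⟨x, y, z, h⟩ := h
  have key : ∀ a : ℤ, (a % 2 = 0 ∧ a ^ 2 % 4 = 0) ∨ (a % 2 = 1 ∧ a ^ 2 % 4 = 1) := by
    intro a
    have h : a % 4 = 0 ∨ a % 4 = 1 ∨ a % 4 = 2 ∨ a % 4 = 3 := by omega
    rcases h with h | h | h | h
    · exact Or.inl ⟨by omega, by simp [sq, Int.mul_emod, h]⟩
    · exact Or.inr ⟨by omega, by simp [sq, Int.mul_emod, h]⟩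
    · exact Or.inl ⟨by omega, by simp [sq, Int.mul_emod, h]⟩
    · exact Or.inr ⟨by omega, by simp [sq, Int.mul_emod, h]⟩
  have h1 := key x
  have h2 := key y
  have h3 := key z
  have ev : ∀ a : ℤ, a % 2 = 0 → a = 2 * (a / 2) := fun a ha => by omega
  have od : ∀ a : ℤ, a % 2 = 1 → a = 2 * (a / 2) + 1 := fun a ha => by omega
  have hcase : (x % 2 = 1 ∧ y % 2 = 0 ∧ z % 2 = 0) ∨ (x % 2 = 0 ∧ y % 2 = 1 ∧ z % 2 = 0) ∨
      (x % 2 = 0 ∧ y % 2 = 0 ∧ z % 2 = 1) := by omega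
  rcases hcase with ⟨a, b, c⟩ | ⟨a, b, c⟩ | ⟨a, b, c⟩
  · exact ⟨x / 2, y / 2, z / 2, by rw [← od x a, ← ev y b, ← ev z c, h]⟩
  · exact ⟨y / 2, x / 2, z / 2, by rw [← od y b, ← ev x a, ← ev z c, ← h]; ring⟩
  · exact ⟨z / 2, x / 2, y / 2, by rw [← od z c, ← ev x a, ← ev y b, ← h]; ring⟩

/-- `n` is a sum of three odd squares iff `n ≡ 3` modulo `8`. -/
theorem three_odd_squares_iff {n : ℕ} :
    (∃ x y z : ℤ, Odd x ∧ Odd y ∧ Odd z ∧ x ^ 2 + y ^ 2 + z ^ 2 = (n : ℤ)) ↔ n % 8 = 3 := by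
  constructor
  · rintro ⟨x, y, z, hx, hy, hz, h⟩
    have key : ∀ a : ℤ, Odd a → a ^ 2 % 8 = 1 := fun a ha => by
      rw [Int.odd_iff] at ha
      have h : a % 8 = 1 ∨ a % 8 = 3 ∨ a % 8 = 5 ∨ a % 8 = 7 := by omega
      rcases h with h | h | h | h <;> simp [sq, Int.mul_emod, h]
    have h1 := key x hx
    have h2 := key y hy
    have h3 := key z hz
    omega
  · intro h8
    obtain ⟨x, y, z, h, -⟩ := exists_sq_of_mod (n := n) (by omega) (by omega)
    obtain ⟨hx, hy, hz⟩ := odd_of_mod_four (x := x) (y := y) (z := z) (by omega)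
    exact ⟨x, y, z, hx, hy, hz, h⟩

/-- The product `z (z + 1)` of an integer is that of a natural number. -/
theorem exists_nat_mul_succ (z : ℤ) : ∃ k : ℕ, (k : ℤ) * (k + 1) = z * (z + 1) := by
  rcases le_or_gt 0 z with h | h
  · exact ⟨z.toNat, by rw [Int.toNat_of_nonneg h]⟩
  · refine ⟨(-1 - z).toNat, ?_⟩
    rw [Int.toNat_of_nonneg (by omega)]
    ring

/-- **Gauss' Eureka theorem** (1796): every natural number is a sum of three triangular numbers. -/
theorem exists_three_triangular (n : ℕ) :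
    ∃ x y z : ℕ, x * (x + 1) / 2 + y * (y + 1) / 2 + z * (z + 1) / 2 = n := by
  obtain ⟨x, y, z, ⟨a, rfl⟩, ⟨b, rfl⟩, ⟨c, rfl⟩, h⟩ := three_odd_squares_iff.2
    (show (8 * n + 3) % 8 = 3 by omega)
  obtain ⟨x, hx⟩ := exists_nat_mul_succ a
  obtain ⟨y, hy⟩ := exists_nat_mul_succ b
  obtain ⟨z, hz⟩ := exists_nat_mul_succ c
  refine ⟨x, y, z, ?_⟩
  have h1 : (x : ℤ) * (x + 1) + y * (y + 1) + z * (z + 1) = 2 * n := by
    rw [hx, hy, hz]
    push_cast at h
    linarith [show (2 * a + 1) ^ 2 = 4 * (a * (a + 1)) + 1 by ring,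
      show (2 * b + 1) ^ 2 = 4 * (b * (b + 1)) + 1 by ring,
      show (2 * c + 1) ^ 2 = 4 * (c * (c + 1)) + 1 by ring]
  have h2 : x * (x + 1) + y * (y + 1) + z * (z + 1) = 2 * n := by exact_mod_cast h1
  have ex := (Nat.even_mul_succ_self x).two_dvd
  have ey := (Nat.even_mul_succ_self y).two_dvd
  have ez := (Nat.even_mul_succ_self z).two_dvd
  omega

/-- Every natural number is the sum of two squares and a triangular number. -/
theorem exists_sq_add_sq_add_triangular (n : ℕ) :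
    ∃ x y z : ℕ, x ^ 2 + y ^ 2 + z * (z + 1) / 2 = n := by
  obtain ⟨x, y, z, h, -⟩ := exists_sq_of_mod (n := 8 * n + 1) (by omega) (by omega)
  obtain ⟨a, b, c, h⟩ := exists_odd_even_even (n := ((8 * n + 1 : ℕ) : ℤ)) (by omega)
    ⟨x, y, z, h⟩
  push_cast at h
  have h1 : a * (a + 1) + (b ^ 2 + c ^ 2) = 2 * n := by
    linarith [show (2 * a + 1) ^ 2 = 4 * (a * (a + 1)) + 1 by ring,
      show (2 * b) ^ 2 = 4 * b ^ 2 by ring, show (2 * c) ^ 2 = 4 * c ^ 2 by ring]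
  have h2 : Even (b ^ 2 + c ^ 2) := by
    have e1 := Int.even_mul_succ_self a
    have e2 : Even (a * (a + 1) + (b ^ 2 + c ^ 2)) := by rw [h1]; exact even_two_mul _
    exact (Int.even_add.1 e2).1 e1
  have h3 : Even (b - c) := by
    rw [Int.even_add, Int.even_pow' two_ne_zero, Int.even_pow' two_ne_zero] at h2
    exact Int.even_sub.2 h2
  obtain ⟨k, hk⟩ := h3
  have hb : b = c + 2 * k := by linarith
  obtain ⟨z, hz⟩ := exists_nat_mul_succ a
  refine ⟨(c + k).natAbs, k.natAbs, z, ?_⟩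
  have ez := (Nat.even_mul_succ_self z).two_dvd
  have h4 : 2 * (c + k).natAbs ^ 2 + 2 * k.natAbs ^ 2 + z * (z + 1) = 2 * n := by
    zify
    rw [sq_abs, sq_abs, hz, ← h1, hb]
    ring
  omega

/-- Every natural number is of the form `x² + y² + z (z + 1)`. -/
theorem exists_sq_add_sq_add_pronic (n : ℕ) : ∃ x y z : ℕ, x ^ 2 + y ^ 2 + z * (z + 1) = n := by
  obtain ⟨x, y, z, h, -⟩ := exists_sq_of_mod (n := 4 * n + 1) (by omega) (by omega)
  obtain ⟨a, b, c, h⟩ := exists_odd_even_even (n := ((4 * n + 1 : ℕ) : ℤ)) (by omega)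
    ⟨x, y, z, h⟩
  push_cast at h
  obtain ⟨z, hz⟩ := exists_nat_mul_succ a
  refine ⟨b.natAbs, c.natAbs, z, ?_⟩
  zify
  rw [sq_abs, sq_abs, hz]
  linarith [show (2 * a + 1) ^ 2 = 4 * (a * (a + 1)) + 1 by ring,
    show (2 * b) ^ 2 = 4 * b ^ 2 by ring, show (2 * c) ^ 2 = 4 * c ^ 2 by ring]

/-- Every natural number is the sum of a square and two triangular numbers. -/
theorem exists_sq_add_triangular_add_triangular (n : ℕ) :
    ∃ x y z : ℕ, x ^ 2 + y * (y + 1) / 2 + z * (z + 1) / 2 = n := by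
  obtain ⟨x, u, v, h⟩ := exists_sq_add_sq_add_pronic n
  obtain ⟨y, hy⟩ := exists_nat_mul_succ ((u : ℤ) + v)
  obtain ⟨z, hz⟩ := exists_nat_mul_succ ((u : ℤ) - v - 1)
  refine ⟨x, y, z, ?_⟩
  have ey := (Nat.even_mul_succ_self y).two_dvd
  have ez := (Nat.even_mul_succ_self z).two_dvd
  have h4 : 2 * x ^ 2 + y * (y + 1) + z * (z + 1) = 2 * n := by
    zify
    rw [hy, hz]
    zify at h
    rw [← h]
    ring
  omega

/-! ### `x² + y² + 2z²` -/

/-- `n = x² + y² + 2z²` if and only if `2 n` is a sum of three squares. -/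
theorem sq_add_sq_add_two_mul_sq_iff_two_mul {n : ℤ} :
    (∃ x y z : ℤ, x ^ 2 + y ^ 2 + 2 * z ^ 2 = n) ↔
      ∃ x y z : ℤ, x ^ 2 + y ^ 2 + z ^ 2 = 2 * n := by
  constructor
  · rintro ⟨x, y, z, rfl⟩
    exact ⟨x + y, x - y, 2 * z, by ring⟩
  · rintro ⟨A, B, C, h⟩
    have aux : ∀ A B C : ℤ, A ^ 2 + B ^ 2 + C ^ 2 = 2 * n → Even (A - B) →
        ∃ x y z : ℤ, x ^ 2 + y ^ 2 + 2 * z ^ 2 = n := by
      intro A B C h hAB
      obtain ⟨k, hk⟩ := hAB
      have hA : A = B + 2 * k := by linarith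
      subst hA
      have hC : Even (C ^ 2) := ⟨n - (B ^ 2 + 2 * B * k + 2 * k ^ 2), by linarith⟩
      rw [Int.even_pow' two_ne_zero] at hC
      obtain ⟨c, rfl⟩ := hC
      exact ⟨B + k, k, c, by linarith [show (B + 2 * k) ^ 2 + B ^ 2 + (c + c) ^ 2 =
        2 * ((B + k) ^ 2 + k ^ 2 + 2 * c ^ 2) by ring]⟩
    rcases Int.even_or_odd (A - B) with h1 | h1
    · exact aux A B C h h1
    · rcases Int.even_or_odd (A - C) with h2 | h2
      · exact aux A C B (by linarith) h2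
      · exact aux B C A (by linarith) (by
          have := h1.sub_odd h2
          have e : A - B - (A - C) = -(B - C) := by ring
          rw [e, even_neg] at this
          exact this)

/-- **`n = x² + y² + 2z²`** is solvable in integers iff `n` is not of the form
`2 * 4 ^ a * (8 * b + 7)`. -/
theorem sq_add_sq_add_two_mul_sq_iff {n : ℕ} :
    (∃ x y z : ℤ, x ^ 2 + y ^ 2 + 2 * z ^ 2 = (n : ℤ)) ↔
      ∀ a b : ℕ, n ≠ 2 * 4 ^ a * (8 * b + 7) := by
  rw [sq_add_sq_add_two_mul_sq_iff_two_mul]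
  have h := sum_three_squares_iff (n := 2 * n)
  push_cast at h
  rw [h]
  constructor
  · intro h a b hab
    refine h (a + 1) b ?_
    rw [hab, pow_succ]
    ring
  · intro h a b hab
    rcases a with _ | a
    · omega
    · refine h a b ?_
      have : 2 * n = 2 * (2 * 4 ^ a * (8 * b + 7)) := by
        rw [hab, pow_succ]; ring
      omega

/-- Every odd natural number is of the form `x² + y² + 2z²`. -/
theorem exists_of_odd {n : ℕ} (hn : Odd n) : ∃ x y z : ℤ, x ^ 2 + y ^ 2 + 2 * z ^ 2 = (n : ℤ) := by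
  refine sq_add_sq_add_two_mul_sq_iff.2 fun a b hab => ?_
  rw [Nat.odd_iff] at hn
  rw [hab, mul_assoc, Nat.mul_mod_right] at hn
  omega

/-! ### Quaternary forms -/

/-- **Lagrange's theorem, refined**: every natural number is a sum of four squares, one of which is
`0` or a power of `4`. -/
theorem exists_four_squares_two_pow (n : ℕ) :
    ∃ x y z w : ℤ, (w = 0 ∨ ∃ k : ℕ, w = 2 ^ k) ∧ x ^ 2 + y ^ 2 + z ^ 2 + w ^ 2 = (n : ℤ) := by
  by_cases h : ∀ a b : ℕ, n ≠ 4 ^ a * (8 * b + 7)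
  · obtain ⟨x, y, z, hx⟩ := sum_three_squares_iff.2 h
    exact ⟨x, y, z, 0, Or.inl rfl, by rw [hx]; ring⟩
  · push Not at h
    obtain ⟨a, b, rfl⟩ := h
    obtain ⟨x, y, z, hx, -⟩ := exists_sq_of_mod (n := 8 * b + 6) (by omega) (by omega)
    refine ⟨2 ^ a * x, 2 ^ a * y, 2 ^ a * z, 2 ^ a, Or.inr ⟨a, rfl⟩, ?_⟩
    have h1 : ((2 : ℤ) ^ a) ^ 2 = 4 ^ a := by
      rw [← pow_mul, mul_comm, pow_mul]; norm_num
    push_cast at hx ⊢
    rw [mul_pow, mul_pow, mul_pow, h1, ← mul_add, ← mul_add, hx]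
    ring

/-- **The universal forms `x² + y² + z² + d w²`** (Ramanujan): all natural numbers are represented
if and only if `1 ≤ d ≤ 7`. -/
theorem universal_iff {d : ℕ} :
    (∀ n : ℕ, ∃ x y z w : ℤ, x ^ 2 + y ^ 2 + z ^ 2 + d * w ^ 2 = (n : ℤ)) ↔ 1 ≤ d ∧ d ≤ 7 := by
  constructor
  · intro h
    obtain ⟨x, y, z, w, hw⟩ := h 7
    have h7 : ¬ ∃ x y z : ℤ, x ^ 2 + y ^ 2 + z ^ 2 = ((7 : ℕ) : ℤ) := by
      rw [iff_of_not_four_dvd (by norm_num)]
      norm_num
    by_contra hd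
    have hd' : d = 0 ∨ 8 ≤ d := by omega
    rcases hd' with rfl | hd'
    · exact h7 ⟨x, y, z, by rw [← hw]; push_cast; ring⟩
    · rcases eq_or_ne w 0 with rfl | hw0
      · exact h7 ⟨x, y, z, by rw [← hw]; ring⟩
      · have h1 : (1 : ℤ) ≤ w ^ 2 := by
          have := sq_pos_of_ne_zero hw0
          omega
        have h2 : (8 : ℤ) ≤ d := by exact_mod_cast hd'
        push_cast at hw
        nlinarith [sq_nonneg x, sq_nonneg y, sq_nonneg z]
  · rintro ⟨h1, h7⟩ n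
    induction n using Nat.strong_induction_on with
    | _ n ih =>
    by_cases h4 : n % 4 = 0
    · rcases Nat.eq_zero_or_pos n with rfl | hn
      · exact ⟨0, 0, 0, 0, by norm_num⟩
      · obtain ⟨m, rfl⟩ := Nat.dvd_of_mod_eq_zero h4
        obtain ⟨x, y, z, w, hx⟩ := ih m (by omega)
        refine ⟨2 * x, 2 * y, 2 * z, 2 * w, ?_⟩
        push_cast
        rw [← hx]
        ring
    by_cases h8 : n % 8 = 7
    swap
    · obtain ⟨x, y, z, hx, -⟩ := exists_sq_of_mod h4 h8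
      exact ⟨x, y, z, 0, by rw [← hx]; ring⟩
    -- `n = 8 b + 7`
    have step : ∀ (k : ℕ) (w : ℤ), (k : ℤ) + d * w ^ 2 = n → k % 4 ≠ 0 → k % 8 ≠ 7 →
        ∃ x y z w : ℤ, x ^ 2 + y ^ 2 + z ^ 2 + d * w ^ 2 = (n : ℤ) := by
      intro k w hk h4 h8
      obtain ⟨x, y, z, hx, -⟩ := exists_sq_of_mod h4 h8
      exact ⟨x, y, z, w, by rw [hx, hk]⟩
    obtain ⟨b, rfl⟩ : ∃ b, n = 8 * b + 7 := ⟨n / 8, by omega⟩
    interval_cases d
    · exact step (8 * b + 6) 1 (by push_cast; ring) (by omega) (by omega)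
    · exact step (8 * b + 5) 1 (by push_cast; ring) (by omega) (by omega)
    · rcases b with _ | b
      · exact ⟨2, 0, 0, 1, by norm_num⟩
      · exact step (8 * b + 3) 2 (by push_cast; ring) (by omega) (by omega)
    · exact step (8 * b + 3) 1 (by push_cast; ring) (by omega) (by omega)
    · exact step (8 * b + 2) 1 (by push_cast; ring) (by omega) (by omega)
    · exact step (8 * b + 1) 1 (by push_cast; ring) (by omega) (by omega)
    · rcases b with _ | _ | _ | b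
      · exact ⟨0, 0, 0, 1, by norm_num⟩
      · exact ⟨2, 2, 0, 1, by norm_num⟩
      · exact ⟨4, 0, 0, 1, by norm_num⟩
      · exact step (8 * b + 3) 2 (by push_cast; ring) (by omega) (by omega)

end Fermat.Agent.Cor.ThreeSq
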