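import Fermat.Agent.Corollaries.ThreeSq.Forms

/-!
# Cauchy's lemma (helper56)

`cauchy_lemma`: if `a`, `b` are odd natural numbers with `b² < 4a` and `3a < b² + 2b + 4`, there are
natural numbers `s`, `t`, `u`, `v` with `a = s² + t² + u² + v²` and `b = s + t + u + v`.
-/

set_option autoImplicit false

namespace Fermat.Agent.Cor.ThreeSq

/-- **Cauchy's lemma** (1813). -/
theorem cauchy_lemma {a b : ℕ} (ha : Odd a) (hb : Odd b) (h1 : b ^ 2 < 4 * a)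
    (h2 : 3 * a < b ^ 2 + 2 * b + 4) :
    ∃ s t u v : ℕ, s ^ 2 + t ^ 2 + u ^ 2 + v ^ 2 = a ∧ s + t + u + v = b := by
  have hb8 : b ^ 2 % 8 = 1 := by
    rw [Nat.odd_iff] at hb
    have h : b % 8 = 1 ∨ b % 8 = 3 ∨ b % 8 = 5 ∨ b % 8 = 7 := by omega
    rcases h with h | h | h | h <;> simp [sq, Nat.mul_mod, h]
  obtain ⟨x, y, z, hx, hy, hz, h⟩ := three_odd_squares_iff.2
    (show (4 * a - b ^ 2) % 8 = 3 by
      rw [Nat.odd_iff] at ha
      omega)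
  have h3 : x ^ 2 + y ^ 2 + z ^ 2 = 4 * (a : ℤ) - (b : ℤ) ^ 2 := by
    rw [h, Nat.cast_sub h1.le]
    push_cast
    ring
  -- choose the sign of `z`
  obtain ⟨z, hz, h3, s, hs⟩ : ∃ z' : ℤ, Odd z' ∧ x ^ 2 + y ^ 2 + z' ^ 2 = 4 * (a : ℤ) - (b : ℤ) ^ 2 ∧
      ∃ s : ℤ, (b : ℤ) + x + y + z' = 4 * s := by
    have hb' : (b : ℤ) % 2 = 1 := by
      rw [Nat.odd_iff] at hb
      omega
    rw [Int.odd_iff] at hx hy hz
    by_cases h4 : ((b : ℤ) + x + y + z) % 4 = 0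
    · exact ⟨z, Int.odd_iff.2 hz, h3, ((b : ℤ) + x + y + z) / 4, by omega⟩
    · exact ⟨-z, (Int.odd_iff.2 hz).neg, by rw [neg_sq]; exact h3,
        ((b : ℤ) + x + y + -z) / 4, by omega⟩
  have h2' : 3 * (a : ℤ) < (b : ℤ) ^ 2 + 2 * b + 4 := by exact_mod_cast h2
  -- Cauchy-Schwarz for all signs
  have key : ∀ α β γ : ℤ, α ^ 2 = x ^ 2 → β ^ 2 = y ^ 2 → γ ^ 2 = z ^ 2 →
      -((b : ℤ) + 4) < α + β + γ := by
    intro α β γ hα hβ hγ
    have h5 : (α + β + γ) ^ 2 < ((b : ℤ) + 4) ^ 2 := by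
      nlinarith [sq_nonneg (α - β), sq_nonneg (β - γ), sq_nonneg (γ - α)]
    exact (abs_lt.1 (abs_lt_of_sq_lt_sq h5 (by positivity))).1
  obtain ⟨x', hx'⟩ := hx
  obtain ⟨y', hy'⟩ := hy
  obtain ⟨z', hz'⟩ := hz
  have k1 := key x y z rfl rfl rfl
  have k2 := key x (-y) (-z) rfl (neg_sq y) (neg_sq z)
  have k3 := key (-x) y (-z) (neg_sq x) rfl (neg_sq z)
  have k4 := key (-x) (-y) z (neg_sq x) (neg_sq y) rfl
  set t : ℤ := s - y' - z' - 1 with ht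
  set u : ℤ := s - x' - z' - 1 with hu
  set v : ℤ := s - x' - y' - 1 with hv
  have s0 : 0 ≤ s := by omega
  have t0 : 0 ≤ t := by omega
  have u0 : 0 ≤ u := by omega
  have v0 : 0 ≤ v := by omega
  refine ⟨s.toNat, t.toNat, u.toNat, v.toNat, ?_, ?_⟩
  · zify
    rw [Int.toNat_of_nonneg s0, Int.toNat_of_nonneg t0, Int.toNat_of_nonneg u0,
      Int.toNat_of_nonneg v0]
    have e : (b : ℤ) = 4 * s - x - y - z := by linarith
    rw [e] at h3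
    have : 4 * (s ^ 2 + t ^ 2 + u ^ 2 + v ^ 2) = 4 * (a : ℤ) := by
      rw [show 4 * (a : ℤ) = x ^ 2 + y ^ 2 + z ^ 2 + (4 * s - x - y - z) ^ 2 by linarith, ht, hu, hv,
        hx', hy', hz']
      ring
    linarith
  · zify
    rw [Int.toNat_of_nonneg s0, Int.toNat_of_nonneg t0, Int.toNat_of_nonneg u0,
      Int.toNat_of_nonneg v0]
    linarith

end Fermat.Agent.Cor.ThreeSq
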