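import Fermat.Agent.Corollaries.ThreeSq.Ternary
import Mathlib.NumberTheory.LSeries.PrimesInAP
import Mathlib.NumberTheory.LegendreSymbol.JacobiSymbol

/-!
# The three squares theorem of Legendre and Gauss (helper56)

`sum_three_squares_iff`: a natural number is a sum of three squares if and only if it is not of the
form `4 ^ a * (8 * b + 7)`. Proof (Dirichlet, Landau): ternary forms of determinant one
(`ThreeSq/Ternary.lean`), primes in arithmetic progressions and the Jacobi symbol.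
-/

set_option autoImplicit false

namespace Fermat.Agent.Cor.ThreeSq

open NumberTheorySymbols

/-- If `-d` is a square modulo `d n - 1`, then `n` is a sum of three squares (with coprime `x`, `y`,
`z`). -/
theorem exists_of_sq_add {n d r s : ℤ} (hd : 0 < d) (hdn : 0 < d * n - 1)
    (h : r ^ 2 + d = s * (d * n - 1)) :
    ∃ x y z : ℤ, x ^ 2 + y ^ 2 + z ^ 2 = n ∧ ∃ u v w : ℤ, u * x + v * y + w * z = 1 := by
  have hs : 0 < s := by
    by_contra h1
    push Not at h1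
    have := mul_nonpos_of_nonpos_of_nonneg h1 hdn.le
    nlinarith [sq_nonneg r]
  have hgood : Good n s r 1 (d * n - 1) 0 n :=
    { pos := hs
      pos' := by rw [← h]; linarith
      det := by linear_combination (-n) * h
      rep := ⟨0, 0, 1, by rw [form]; ring, 0, 0, 1, by norm_num⟩ }
  exact hgood.exists_sq

/-- `-d` is a square modulo `p` if its Jacobi symbol is `1`. -/
theorem exists_dvd_sq_add {p : ℕ} (hp : p.Prime) {d : ℕ} (h : J(-(d : ℤ) | p) = 1) :
    ∃ r : ℤ, (p : ℤ) ∣ r ^ 2 + d := by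
  have : Fact p.Prime := ⟨hp⟩
  obtain ⟨x, hx⟩ := ZMod.isSquare_of_jacobiSym_eq_one h
  obtain ⟨r, rfl⟩ := ZMod.intCast_surjective x
  refine ⟨r, ?_⟩
  rw [← ZMod.intCast_zmod_eq_zero_iff_dvd]
  push_cast at hx ⊢
  rw [sq, ← hx]
  ring

/-- The case `n ≡ 2` modulo `4`. -/
theorem of_two_mod_four {n : ℕ} (hn : n % 4 = 2) :
    ∃ x y z : ℤ, x ^ 2 + y ^ 2 + z ^ 2 = (n : ℤ) ∧ ∃ u v w : ℤ, u * x + v * y + w * z = 1 := by
  have hcop : (n - 1).Coprime (4 * n) := by
    have h1 : (n - 1).Coprime n := (Nat.coprime_self_sub_left (by omega)).2 (Nat.coprime_one_left n)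
    have h2 : (n - 1).Coprime 4 := by
      rw [show (4 : ℕ) = 2 ^ 2 by norm_num]
      refine Nat.Coprime.pow_right 2 ?_
      exact Nat.coprime_two_right.2 (Nat.odd_iff.2 (by omega))
    exact h2.mul_right h1
  obtain ⟨p, hpn, hp, hmod⟩ := Nat.forall_exists_prime_gt_and_modEq n (by omega) hcop
  obtain ⟨j, hj⟩ := (Nat.modEq_iff_dvd' (by omega : n - 1 ≤ p)).1 hmod.symm
  have hpe : p + 1 = (4 * j + 1) * n := by
    have h0 : p = 4 * n * j + (n - 1) := by omega
    have h1 : p + 1 = 4 * n * j + n := by omega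
    rw [h1]; ring
  have hp4 : p % 4 = 1 := by
    have h0 : p = 4 * (n * j) + (n - 1) := by
      have : 4 * n * j = 4 * (n * j) := by ring
      omega
    omega
  have hpodd : Odd p := Nat.odd_iff.2 (by omega)
  have hd4 : (4 * j + 1) % 4 = 1 := by omega
  have hdodd : Odd (4 * j + 1) := Nat.odd_iff.2 (by omega)
  have hJ : J(-((4 * j + 1 : ℕ) : ℤ) | p) = 1 := by
    have hmod1 : (p : ℤ) % ((4 * j + 1 : ℕ) : ℤ) = (-1) % ((4 * j + 1 : ℕ) : ℤ) := by
      refine Int.modEq_iff_dvd.2 ⟨-n, ?_⟩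
      have : (p : ℤ) + 1 = ((4 * j + 1 : ℕ) : ℤ) * n := by exact_mod_cast hpe
      linear_combination -this
    rw [neg_eq_neg_one_mul, jacobiSym.mul_left, jacobiSym.at_neg_one hpodd,
      ZMod.χ₄_nat_one_mod_four hp4, one_mul,
      jacobiSym.quadratic_reciprocity_one_mod_four hd4 hpodd,
      jacobiSym.mod_left' hmod1, jacobiSym.at_neg_one hdodd,
      ZMod.χ₄_nat_one_mod_four hd4]
  obtain ⟨r, s, hs⟩ := exists_dvd_sq_add hp hJ
  have hpe' : (p : ℤ) = ((4 * j + 1 : ℕ) : ℤ) * n - 1 := by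
    have : (p : ℤ) + 1 = ((4 * j + 1 : ℕ) : ℤ) * n := by exact_mod_cast hpe
    linarith
  refine exists_of_sq_add (d := ((4 * j + 1 : ℕ) : ℤ)) (r := r) (s := s) (by positivity) ?_ ?_
  · rw [← hpe']; exact_mod_cast hp.pos
  · rw [← hpe', hs]; ring

/-- The main step for odd `n`: `2 t + 1 = c n`, `c ≡ 1` or `3` modulo `8`, `t` odd, and `c ≡ 3`
modulo `4` if `t ≡ 3` modulo `4`. -/
theorem of_odd {n c t : ℕ} (hn : 0 < n) (ht : 2 * t + 1 = c * n) (hc : c % 8 = 1 ∨ c % 8 = 3)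
    (h : t % 4 = 1 ∨ (t % 4 = 3 ∧ c % 4 = 3)) :
    ∃ x y z : ℤ, x ^ 2 + y ^ 2 + z ^ 2 = (n : ℤ) ∧ ∃ u v w : ℤ, u * x + v * y + w * z = 1 := by
  have hcop : t.Coprime (4 * n) := by
    have h1 : t.Coprime n := by
      have h3 : t.Coprime (c * n) := by
        rw [← ht, Nat.coprime_mul_right_add_right]
        exact Nat.coprime_one_right t
      exact Nat.Coprime.coprime_mul_left_right h3
    have h2 : t.Coprime 4 := by
      rw [show (4 : ℕ) = 2 ^ 2 by norm_num]
      refine Nat.Coprime.pow_right 2 ?_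
      exact Nat.coprime_two_right.2 (Nat.odd_iff.2 (by omega))
    exact h2.mul_right h1
  obtain ⟨p, hpn, hp, hmod⟩ := Nat.forall_exists_prime_gt_and_modEq t (by omega) hcop
  obtain ⟨j, hj⟩ := (Nat.modEq_iff_dvd' (by omega : t ≤ p)).1 hmod.symm
  have hpe : 2 * p + 1 = (8 * j + c) * n := by
    have h0 : p = 4 * n * j + t := by omega
    have h1 : 2 * p + 1 = 8 * n * j + c * n := by
      rw [← ht, h0]; ring
    rw [h1]; ring
  have hpt : p % 4 = t % 4 := by
    have h0 : p = 4 * (n * j) + t := by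
      have : 4 * n * j = 4 * (n * j) := by ring
      omega
    omega
  have hpodd : Odd p := Nat.odd_iff.2 (by omega)
  have hdodd : Odd (8 * j + c) := Nat.odd_iff.2 (by omega)
  have hpe' : 2 * (p : ℤ) = ((8 * j + c : ℕ) : ℤ) * n - 1 := by
    have : 2 * (p : ℤ) + 1 = ((8 * j + c : ℕ) : ℤ) * n := by exact_mod_cast hpe
    linarith
  -- the Jacobi symbols
  have hJ1 : J(-((8 * j + c : ℕ) : ℤ) | p) = J((p : ℤ) | 8 * j + c) := by
    rw [neg_eq_neg_one_mul, jacobiSym.mul_left, jacobiSym.at_neg_one hpodd]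
    rcases h with h | ⟨h, h'⟩
    · rw [ZMod.χ₄_nat_one_mod_four (by omega), one_mul]
      exact jacobiSym.quadratic_reciprocity_one_mod_four' hdodd (by omega)
    · rw [ZMod.χ₄_nat_three_mod_four (by omega),
        jacobiSym.quadratic_reciprocity_three_mod_four (by omega) (by omega)]
      ring
  have hJ2 : J(-2 | 8 * j + c) = 1 := by
    rw [jacobiSym.at_neg_two hdodd, ZMod.χ₈'_nat_eq_if_mod_eight]
    have h1 : (8 * j + c) % 2 ≠ 0 := by omega
    have h2 : (8 * j + c) % 8 = 1 ∨ (8 * j + c) % 8 = 3 := by omega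
    rw [if_neg h1, if_pos h2]
  have hJ3 : J((p : ℤ) | 8 * j + c) = 1 := by
    have hmod1 : ((-2) * (p : ℤ)) % ((8 * j + c : ℕ) : ℤ) = 1 % ((8 * j + c : ℕ) : ℤ) := by
      refine Int.modEq_iff_dvd.2 ⟨n, ?_⟩
      linear_combination hpe'
    have h1 : J((-2) * (p : ℤ) | 8 * j + c) = 1 := by
      rw [jacobiSym.mod_left' hmod1, jacobiSym.one_left]
    rwa [jacobiSym.mul_left, hJ2, one_mul] at h1
  obtain ⟨r, hr⟩ := exists_dvd_sq_add hp (hJ1.trans hJ3)
  -- an odd square root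
  obtain ⟨r', hr', hodd⟩ : ∃ r' : ℤ, (p : ℤ) ∣ r' ^ 2 + ((8 * j + c : ℕ) : ℤ) ∧ Odd r' := by
    rcases Int.even_or_odd r with h1 | h1
    · refine ⟨r + p, ?_, h1.add_odd (by exact_mod_cast hpodd)⟩
      have h2 : (r + (p : ℤ)) ^ 2 + ((8 * j + c : ℕ) : ℤ) =
          r ^ 2 + ((8 * j + c : ℕ) : ℤ) + p * (2 * r + p) := by ring
      rw [h2]
      exact dvd_add hr (Dvd.intro _ rfl)
    · exact ⟨r, hr, h1⟩
  have h2 : (2 : ℤ) ∣ r' ^ 2 + ((8 * j + c : ℕ) : ℤ) :=
    (hodd.pow.add_odd (by exact_mod_cast hdodd)).two_dvd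
  have hcop2 : IsCoprime (2 : ℤ) (p : ℤ) := by
    have : Nat.Coprime 2 p := Nat.coprime_two_left.2 hpodd
    exact_mod_cast Nat.isCoprime_iff_coprime.2 this
  obtain ⟨s, hs⟩ := hcop2.mul_dvd h2 hr'
  refine exists_of_sq_add (d := ((8 * j + c : ℕ) : ℤ)) (r := r') (s := s) ?_ ?_ ?_
  · have : 0 < 8 * j + c := by omega
    exact_mod_cast this
  · rw [← hpe']
    have := hp.pos
    positivity
  · rw [← hpe', hs]; ring

/-- Every `n` with `n ≢ 0` modulo `4` and `n ≢ 7` modulo `8` is a sum of three squares of coprime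
numbers. -/
theorem exists_sq_of_mod {n : ℕ} (h4 : n % 4 ≠ 0) (h8 : n % 8 ≠ 7) :
    ∃ x y z : ℤ, x ^ 2 + y ^ 2 + z ^ 2 = (n : ℤ) ∧ ∃ u v w : ℤ, u * x + v * y + w * z = 1 := by
  have h : n % 4 = 2 ∨ n % 8 = 1 ∨ n % 8 = 3 ∨ n % 8 = 5 := by omega
  rcases h with h | h | h | h
  · exact of_two_mod_four h
  · exact of_odd (c := 3) (t := (3 * n - 1) / 2) (by omega) (by omega) (by norm_num) (by omega)
  · exact of_odd (c := 1) (t := (n - 1) / 2) (by omega) (by omega) (by norm_num) (by omega)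
  · exact of_odd (c := 3) (t := (3 * n - 1) / 2) (by omega) (by omega) (by norm_num) (by omega)

/-- Squares modulo `8`. -/
theorem sq_emod_eight (x : ℤ) : x ^ 2 % 8 = 0 ∨ x ^ 2 % 8 = 1 ∨ x ^ 2 % 8 = 4 := by
  have h : x % 8 = 0 ∨ x % 8 = 1 ∨ x % 8 = 2 ∨ x % 8 = 3 ∨ x % 8 = 4 ∨ x % 8 = 5 ∨ x % 8 = 6 ∨
    x % 8 = 7 := by omega
  rcases h with h | h | h | h | h | h | h | h <;> simp [sq, Int.mul_emod, h]

/-- If `4` divides a sum of three squares, the three numbers are even. -/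
theorem even_of_four_dvd {x y z : ℤ} (h : (x ^ 2 + y ^ 2 + z ^ 2) % 4 = 0) :
    (2 : ℤ) ∣ x ∧ (2 : ℤ) ∣ y ∧ (2 : ℤ) ∣ z := by
  have key : ∀ a : ℤ, (a % 2 = 0 ∧ a ^ 2 % 4 = 0) ∨ (a % 2 = 1 ∧ a ^ 2 % 4 = 1) := by
    intro a
    have h : a % 4 = 0 ∨ a % 4 = 1 ∨ a % 4 = 2 ∨ a % 4 = 3 := by omega
    rcases h with h | h | h | h
    · exact Or.inl ⟨by omega, by simp [sq, Int.mul_emod, h]⟩
    · exact Or.inr ⟨by omega, by simp [sq, Int.mul_emod, h]⟩
    · exact Or.inl ⟨by omega, by simp [sq, Int.mul_emod, h]⟩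
    · exact Or.inr ⟨by omega, by simp [sq, Int.mul_emod, h]⟩
  have h1 := key x
  have h2 := key y
  have h3 := key z
  omega

/-- **Primitive representations** (Legendre, Gauss): a natural number `n` is a sum of three squares
of coprime integers if and only if `n ≢ 0, 4, 7` modulo `8`. -/
theorem primitive_iff {n : ℕ} :
    (∃ x y z : ℤ, x ^ 2 + y ^ 2 + z ^ 2 = (n : ℤ) ∧ ∃ u v w : ℤ, u * x + v * y + w * z = 1) ↔
      n % 4 ≠ 0 ∧ n % 8 ≠ 7 := by
  constructor
  · rintro ⟨x, y, z, h, u, v, w, huvw⟩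
    constructor
    · intro h4
      obtain ⟨⟨x', rfl⟩, ⟨y', rfl⟩, ⟨z', rfl⟩⟩ := even_of_four_dvd (x := x) (y := y) (z := z)
        (by rw [h]; exact_mod_cast h4)
      have h5 : 2 * (u * x' + v * y' + w * z') = 1 := by rw [← huvw]; ring
      omega
    · intro h8
      have h1 := sq_emod_eight x
      have h2 := sq_emod_eight y
      have h3 := sq_emod_eight z
      omega
  · rintro ⟨h4, h8⟩
    exact exists_sq_of_mod h4 h8

/-- **The three squares theorem** (Legendre 1798, Gauss 1801): a natural number `n` is a sum of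
three squares if and only if `n` is not of the form `4 ^ a * (8 * b + 7)`. -/
theorem sum_three_squares_iff {n : ℕ} :
    (∃ x y z : ℤ, x ^ 2 + y ^ 2 + z ^ 2 = (n : ℤ)) ↔ ∀ a b : ℕ, n ≠ 4 ^ a * (8 * b + 7) := by
  constructor
  · rintro ⟨x, y, z, h⟩ a b rfl
    induction a generalizing x y z with
    | zero =>
      have h1 := sq_emod_eight x
      have h2 := sq_emod_eight y
      have h3 := sq_emod_eight z
      push_cast at h
      omega
    | succ a ih =>
      have h4 : (x ^ 2 + y ^ 2 + z ^ 2) % 4 = 0 := by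
        rw [h]
        push_cast
        rw [pow_succ, mul_comm ((4 : ℤ) ^ a) 4, mul_assoc]
        exact Int.mul_emod_right 4 _
      obtain ⟨⟨x', rfl⟩, ⟨y', rfl⟩, ⟨z', rfl⟩⟩ := even_of_four_dvd h4
      refine ih x' y' z' ?_
      push_cast at h ⊢
      have h5 : (4 : ℤ) * (x' ^ 2 + y' ^ 2 + z' ^ 2) = 4 * (4 ^ a * (8 * b + 7)) := by
        rw [show (4 : ℤ) * (x' ^ 2 + y' ^ 2 + z' ^ 2) =
          (2 * x') ^ 2 + (2 * y') ^ 2 + (2 * z') ^ 2 by ring, h, pow_succ]
        ring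
      exact mul_left_cancel₀ (by norm_num) h5
  · induction n using Nat.strong_induction_on with
    | _ n ih =>
    intro h
    rcases Nat.eq_zero_or_pos n with rfl | hn
    · exact ⟨0, 0, 0, by norm_num⟩
    by_cases h4 : n % 4 = 0
    · obtain ⟨m, rfl⟩ := Nat.dvd_of_mod_eq_zero h4
      obtain ⟨x, y, z, hx⟩ := ih m (by omega) fun a b hm => h (a + 1) b (by
        rw [hm, pow_succ]; ring)
      refine ⟨2 * x, 2 * y, 2 * z, ?_⟩
      push_cast
      rw [← hx]
      ring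
    · obtain ⟨x, y, z, hx, -⟩ := exists_sq_of_mod h4 fun h8 => h 0 (n / 8) (by
        rw [pow_zero, one_mul]
        omega)
      exact ⟨x, y, z, hx⟩

end Fermat.Agent.Cor.ThreeSq
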