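import Fermat.Agent.Corollaries.ThreeSq.Cauchy
import Mathlib.NumberTheory.SumFourSquares
import Mathlib.Data.Nat.Choose.Basic

/-!
# The polygonal number theorem of Fermat and Cauchy (helper56)

The polygonal numbers of order `m + 2` are `polygonal m k = m k (k - 1) / 2 + k` (`m = 1`:
triangular numbers, `m = 2`: squares, `m = 3`: pentagonal numbers, ...).

* `cauchy_polygonal` (Cauchy 1813): for `3 ≤ m` every natural number is a sum of four polygonal
  numbers of order `m + 2` and of `r ≤ m - 2` ones;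
* `fermat_polygonal` (conjectured by Fermat 1638): for `1 ≤ m` every natural number is a sum of
  `m + 2` polygonal numbers of order `m + 2`; `polygonal_number_theorem`: the same without any
  definition, for the order `n = m + 2`; `polygonal_optimal`: `m + 1` are not enough.

Proof: write `N = m T + b + r`, where `T = ∑ s (s - 1) / 2` and `b = ∑ s` for four natural numbers
`s`; Cauchy's lemma gives all odd `b` with `b² - 4b < 8T` and `6T + b < b² + 4`, which is enough for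
`43 ≤ T`, and the table `tab` does the rest. There is no lower bound for `N`.
-/

set_option autoImplicit false

namespace Fermat.Agent.Cor.ThreeSq

/-- The `k`-th polygonal number of order `m + 2`: `m k (k - 1) / 2 + k`. -/
def polygonal (m k : ℕ) : ℕ := m * k.choose 2 + k

/-- `T = ∑ s (s - 1) / 2` and `b = ∑ s` for four natural numbers `s`. -/
def InB (T b : ℕ) : Prop :=
  ∃ s t u v : ℕ, s.choose 2 + t.choose 2 + u.choose 2 + v.choose 2 = T ∧ s + t + u + v = b

theorem two_mul_choose_two (s : ℕ) : 2 * s.choose 2 + s = s ^ 2 := by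
  rw [Nat.choose_two_right]
  have h := (Nat.even_mul_pred_self s).two_dvd
  rcases s with _ | s
  · rfl
  · rw [Nat.add_sub_cancel] at h ⊢
    rw [Nat.mul_div_cancel' h]
    ring

/-- Cauchy's lemma in terms of `T` and `b`. -/
theorem inB_of_odd {T b : ℕ} (hb : Odd b) (h1 : b ^ 2 < 8 * T + 4 * b)
    (h2 : 6 * T + b < b ^ 2 + 4) : InB T b := by
  obtain ⟨s, t, u, v, h3, h4⟩ := cauchy_lemma (a := 2 * T + b) (b := b)
    ((even_two_mul T).add_odd hb) hb (by linarith) (by linarith)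
  refine ⟨s, t, u, v, ?_, h4⟩
  have e1 := two_mul_choose_two s
  have e2 := two_mul_choose_two t
  have e3 := two_mul_choose_two u
  have e4 := two_mul_choose_two v
  omega

/-- The least odd number `l` with `6 T + l < l² + 4`: the properties which are used. -/
structure Least (T l : ℕ) : Prop where
  odd : Odd l
  lt : 6 * T + l < l ^ 2 + 4
  le : l ^ 2 + 10 ≤ 6 * T + 5 * l

theorem exists_least {T : ℕ} (hT : 1 ≤ T) : ∃ l, Least T l := by
  classical
  have hex : ∃ k : ℕ, 6 * T + (2 * k + 1) < (2 * k + 1) ^ 2 + 4 := ⟨6 * T, by nlinarith⟩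
  obtain ⟨k, hk, hmin⟩ : ∃ k : ℕ, 6 * T + (2 * k + 1) < (2 * k + 1) ^ 2 + 4 ∧
      ∀ j < k, ¬ 6 * T + (2 * j + 1) < (2 * j + 1) ^ 2 + 4 :=
    ⟨Nat.find hex, Nat.find_spec hex, fun j hj => Nat.find_min hex hj⟩
  refine ⟨2 * k + 1, ⟨k, rfl⟩, hk, ?_⟩
  rcases k with _ | k
  · omega
  · have h := hmin k (by omega)
    push Not at h
    nlinarith

/-- For `43 ≤ T` all odd `b` between `l` and `l' + 2` are in `B T`. -/
theorem inB_of_le {T l l' b : ℕ} (hT : 43 ≤ T) (hl : Least T l) (hl' : Least (T + 1) l')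
    (hb : Odd b) (h1 : l ≤ b) (h2 : b ≤ l' + 2) : InB T b := by
  have a1 := hl.lt
  have a2 := hl'.le
  have hlt : l' ^ 2 < 8 * T + 4 := by
    by_contra hc
    push Not at hc
    have h3 : 2 * T + 8 ≤ 5 * l' := by linarith
    have h4 : 19 ≤ l' := by omega
    nlinarith
  have hl1 : 1 ≤ l := hl.odd.pos
  refine inB_of_odd hb ?_ ?_
  · zify at *
    nlinarith [mul_nonneg (show (0 : ℤ) ≤ l' + 2 - b by linarith)
      (show (0 : ℤ) ≤ (b : ℤ) + l' - 2 + 0 by
        have : (1 : ℤ) ≤ b := by linarith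
        have : (1 : ℤ) ≤ l' := by exact_mod_cast hl'.odd.pos
        linarith)]
  · zify at *
    nlinarith [mul_nonneg (show (0 : ℤ) ≤ b - l by linarith)
      (show (0 : ℤ) ≤ (b : ℤ) + l - 1 by linarith)]

/-! ### The table for `T ≤ 42` -/

/-- Representations used for `T ≤ 42`. -/
def tab : List (ℕ × ℕ × ℕ × ℕ) := [(0, 0, 0, 0), (1, 0, 0, 0), (1, 1, 0, 0), (1, 1, 1, 0),
  (1, 1, 1, 1), (2, 1, 0, 0), (2, 1, 1, 0), (2, 1, 1, 1), (2, 2, 0, 0), (2, 2, 1, 0),
  (2, 2, 1, 1), (3, 1, 1, 0), (2, 2, 2, 0), (3, 2, 0, 0), (3, 2, 1, 0), (3, 2, 1, 1),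
  (2, 2, 2, 2), (3, 2, 2, 0), (3, 2, 2, 1), (3, 3, 1, 0), (3, 3, 1, 1), (4, 2, 1, 0),
  (3, 3, 2, 0), (3, 3, 2, 1), (4, 2, 2, 0), (4, 2, 2, 1), (3, 3, 2, 2), (3, 3, 3, 0),
  (3, 3, 3, 1), (4, 3, 2, 0), (4, 3, 2, 1), (5, 2, 1, 1), (4, 3, 2, 2), (4, 4, 1, 0),
  (4, 3, 3, 0), (4, 3, 3, 1), (3, 3, 3, 3), (4, 4, 2, 1), (4, 3, 3, 2), (5, 3, 2, 1),
  (4, 4, 2, 2), (4, 4, 3, 0), (4, 4, 3, 1), (5, 3, 3, 0), (5, 3, 3, 1), (5, 4, 2, 0),
  (5, 4, 2, 1), (6, 3, 1, 1), (4, 4, 4, 0), (4, 4, 4, 1), (4, 4, 3, 3), (5, 4, 3, 1),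
  (4, 4, 4, 2), (6, 3, 2, 2), (5, 4, 3, 2), (5, 5, 2, 1), (4, 4, 4, 3), (5, 4, 4, 0),
  (5, 4, 4, 1), (5, 5, 3, 0), (5, 5, 3, 1), (6, 4, 3, 0), (6, 4, 3, 1), (6, 5, 1, 1),
  (6, 4, 3, 2), (6, 5, 2, 0), (5, 5, 4, 0), (5, 5, 4, 1), (5, 5, 3, 3), (6, 4, 4, 1),
  (5, 5, 4, 2), (6, 5, 3, 1), (6, 4, 4, 2), (7, 4, 2, 2), (6, 5, 3, 2), (5, 5, 5, 0),
  (5, 5, 5, 1), (6, 5, 4, 0), (6, 5, 4, 1), (7, 5, 2, 1), (6, 6, 2, 2), (6, 6, 3, 0),
  (6, 6, 3, 1), (7, 5, 3, 0), (7, 5, 3, 1), (8, 4, 2, 1), (6, 5, 5, 0), (6, 5, 5, 1),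
  (6, 6, 4, 0), (6, 6, 4, 1), (6, 5, 5, 2), (7, 5, 4, 1), (6, 6, 4, 2), (7, 6, 2, 2),
  (7, 5, 4, 2), (7, 6, 3, 1), (6, 6, 4, 3), (6, 6, 5, 0), (6, 6, 5, 1), (7, 5, 5, 0),
  (7, 5, 5, 1), (7, 6, 4, 0), (7, 6, 4, 1)]

/-- The start of the chain for `T ≤ 43`. -/
def lo : List ℕ := [0, 3, 4, 5, 5, 7, 7, 7, 8, 9, 9, 9, 9, 11, 11, 11, 11, 11, 11, 13, 13, 13, 13,
  13, 13, 13, 13, 15, 15, 15, 15, 15, 15, 15, 15, 15, 16, 17, 17, 17, 17, 17, 17, 17]

/-- The end of the chain for `T ≤ 42`. -/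
def hi : List ℕ := [4, 5, 6, 6, 8, 8, 8, 9, 10, 10, 10, 11, 12, 12, 12, 12, 12, 12, 14, 14, 14, 15,
  14, 14, 14, 15, 16, 16, 16, 16, 16, 16, 16, 16, 16, 17, 18, 18, 18, 19, 18, 18, 18]

/-- Membership in `B T` by the table. -/
def InTab (T b : ℕ) : Prop :=
  ∃ w ∈ tab, w.1.choose 2 + w.2.1.choose 2 + w.2.2.1.choose 2 + w.2.2.2.choose 2 = T ∧
    w.1 + w.2.1 + w.2.2.1 + w.2.2.2 = b

instance (T b : ℕ) : Decidable (InTab T b) := by unfold InTab; infer_instance

theorem InTab.inB {T b : ℕ} (h : InTab T b) : InB T b := by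
  obtain ⟨w, -, h1, h2⟩ := h
  exact ⟨_, _, _, _, h1, h2⟩

theorem tab_spec : ∀ T < 43, InTab T (hi.getD T 0) ∧ lo.getD (T + 1) 0 + 1 ≤ hi.getD T 0 ∧
    ∀ L < hi.getD T 0, lo.getD T 0 ≤ L → InTab T L ∨ InTab T (L - 1) ∧ 1 ≤ L := by
  decide +kernel

/-! ### The theorem -/

/-- The chains `l T ≤ ... ≤ h T` in `B T` with gaps at most `2`, overlapping for consecutive `T`. -/
theorem exists_chain : ∃ l h : ℕ → ℕ, l 0 = 0 ∧ (∀ T, l (T + 1) + 1 ≤ h T) ∧ (∀ T, InB T (h T)) ∧
    ∀ T L, l T ≤ L → L < h T → ∃ b, InB T b ∧ b ≤ L ∧ L ≤ b + 1 := by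
  have hex : ∀ T : ℕ, ∃ l, 43 ≤ T → Least T l := fun T => by
    by_cases hT : 43 ≤ T
    · obtain ⟨l, hl⟩ := exists_least (T := T) (by omega)
      exact ⟨l, fun _ => hl⟩
    · exact ⟨0, fun h => absurd h hT⟩
  choose c hc using hex
  have hc43 : c 43 = 17 := by
    have h1 := (hc 43 le_rfl).lt
    have h2 := (hc 43 le_rfl).le
    have h3 := (hc 43 le_rfl).odd
    have h4 : c 43 ≤ 20 := by nlinarith
    have h5 : 15 ≤ c 43 := by nlinarith
    rw [Nat.odd_iff] at h3
    interval_cases h : c 43 <;> omega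
  refine ⟨fun T => if T < 43 then lo.getD T 0 else c T,
    fun T => if T < 43 then hi.getD T 0 else c (T + 1) + 2, by norm_num [lo], ?_, ?_, ?_⟩
  · intro T
    by_cases h1 : T < 43
    · have h2 := (tab_spec T h1).2.1
      by_cases h3 : T + 1 < 43
      · simp only [h1, h3, if_true]
        exact h2
      · have h4 : T = 42 := by omega
        subst h4
        simp only [h1, h3, if_true, if_false]
        rw [hc43]
        decide
    · simp only [h1, show ¬ T + 1 < 43 by omega, if_false]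
      omega
  · intro T
    by_cases h1 : T < 43
    · simp only [h1, if_true]
      exact (tab_spec T h1).1.inB
    · simp only [h1, if_false]
      have g1 := hc T (by omega)
      have g2 := hc (T + 1) (by omega)
      refine inB_of_le (by omega) g1 g2 (g2.odd.add_even even_two) ?_ le_rfl
      have a1 := g1.le
      have a2 := g2.lt
      by_contra hlt
      push Not at hlt
      obtain ⟨i, hi⟩ := g1.odd
      obtain ⟨j, hj⟩ := g2.odd
      have : c (T + 1) + 4 ≤ c T := by omega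
      nlinarith
  · intro T L hl hL
    by_cases h1 : T < 43
    · simp only [h1, if_true] at hl hL
      rcases (tab_spec T h1).2.2 L hL hl with h2 | ⟨h2, h3⟩
      · exact ⟨L, h2.inB, le_rfl, by omega⟩
      · exact ⟨L - 1, h2.inB, by omega, by omega⟩
    · simp only [h1, if_false] at hl hL
      have g1 := hc T (by omega)
      have g2 := hc (T + 1) (by omega)
      rcases Nat.even_or_odd L with h2 | h2
      · have h3 : c T < L := by
          refine lt_of_le_of_ne hl fun h => ?_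
          rw [← h] at h2
          exact Nat.not_even_iff_odd.2 g1.odd h2
        refine ⟨L - 1, inB_of_le (by omega) g1 g2 ?_ (by omega) (by omega), by omega, by omega⟩
        exact Nat.Even.sub_odd (by omega) h2 odd_one
      · exact ⟨L, inB_of_le (by omega) g1 g2 h2 hl (by omega), le_rfl, by omega⟩

/-- Every `N` is `m T + b + r` with `b ∈ B T` and `r ≤ m - 2`. -/
theorem exists_inB {m : ℕ} (hm : 3 ≤ m) (N : ℕ) :
    ∃ T b r : ℕ, InB T b ∧ r + 2 ≤ m ∧ m * T + b + r = N := by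
  classical
  obtain ⟨l, h, h0, hstep, hh, hchain⟩ := exists_chain
  have hex : ∃ T, N < m * (T + 1) + l (T + 1) := ⟨N, by nlinarith⟩
  obtain ⟨T, hT, hmin⟩ : ∃ T, N < m * (T + 1) + l (T + 1) ∧ ∀ j < T, ¬ N < m * (j + 1) + l (j + 1) :=
    ⟨Nat.find hex, Nat.find_spec hex, fun j hj => Nat.find_min hex hj⟩
  have hle : m * T + l T ≤ N := by
    rcases T with _ | T
    · rw [h0]; omega
    · exact not_lt.1 (hmin T (by omega))
  have hs := hstep T
  have hmT : m * (T + 1) = m * T + m := by ring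
  rw [hmT] at hT
  by_cases hL : N - m * T < h T
  · obtain ⟨b, hb, h1, h2⟩ := hchain T (N - m * T) (by omega) hL
    exact ⟨T, b, N - m * T - b, hb, by omega, by omega⟩
  · exact ⟨T, h T, N - m * T - h T, hh T, by omega, by omega⟩

/-- **Cauchy's polygonal number theorem** (1813): for `3 ≤ m` every natural number is the sum of
four polygonal numbers of order `m + 2` and of at most `m - 2` ones. -/
theorem cauchy_polygonal {m : ℕ} (hm : 3 ≤ m) (N : ℕ) :
    ∃ s t u v r : ℕ, r + 2 ≤ m ∧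
      polygonal m s + polygonal m t + polygonal m u + polygonal m v + r = N := by
  obtain ⟨T, b, r, ⟨s, t, u, v, h1, h2⟩, hr, h3⟩ := exists_inB hm N
  refine ⟨s, t, u, v, r, hr, ?_⟩
  rw [← h3, ← h1, ← h2, polygonal, polygonal, polygonal, polygonal]
  ring

/-- **The polygonal number theorem** (Fermat, Gauss, Lagrange, Cauchy): every natural number is a sum
of `m + 2` polygonal numbers of order `m + 2`, for every `1 ≤ m`. -/
theorem fermat_polygonal {m : ℕ} (hm : 1 ≤ m) (N : ℕ) :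
    ∃ f : Fin (m + 2) → ℕ, ∑ i, polygonal m (f i) = N := by
  obtain rfl | rfl | hm3 : m = 1 ∨ m = 2 ∨ 3 ≤ m := by omega
  · obtain ⟨x, y, z, h⟩ := exists_three_triangular N
    refine ⟨![x, y, z], ?_⟩
    have key : ∀ k : ℕ, polygonal 1 k = k * (k + 1) / 2 := by
      intro k
      have h1 := two_mul_choose_two k
      have h2 : k * (k + 1) = 2 * (k.choose 2 + k) := by linarith [sq k]
      rw [h2, Nat.mul_div_cancel_left _ (by norm_num), polygonal, one_mul]
    simp [Fin.sum_univ_succ, key]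
    omega
  · obtain ⟨a, b, c, d, h⟩ := Nat.sum_four_squares N
    refine ⟨![a, b, c, d], ?_⟩
    have key : ∀ k : ℕ, polygonal 2 k = k ^ 2 := fun k => two_mul_choose_two k
    simp [Fin.sum_univ_succ, key]
    omega
  · obtain ⟨k, rfl⟩ : ∃ k, m = k + 2 := ⟨m - 2, by omega⟩
    obtain ⟨s, t, u, v, r, hr, h⟩ := cauchy_polygonal hm3 N
    refine ⟨Fin.cons s (Fin.cons t (Fin.cons u (Fin.cons v
      (fun i : Fin k => if (i : ℕ) < r then 1 else 0)))), ?_⟩
    rw [Fin.sum_univ_succ, Fin.sum_univ_succ, Fin.sum_univ_succ, Fin.sum_univ_succ]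
    simp only [Fin.cons_zero, Fin.cons_succ]
    have h1 : ∑ i : Fin k, polygonal (k + 2) (if (i : ℕ) < r then 1 else 0) = r := by
      have h2 : ∀ i : Fin k, polygonal (k + 2) (if (i : ℕ) < r then 1 else 0) =
          if (i : ℕ) < r then 1 else 0 := by
        intro i
        split_ifs <;> simp [polygonal]
      obtain ⟨e, he⟩ : ∃ e, k = r + e := ⟨k - r, by omega⟩
      rw [Finset.sum_congr rfl fun i _ => h2 i,
        Fin.sum_univ_eq_sum_range (fun i => if i < r then 1 else 0) k, he, Finset.sum_range_add,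
        Finset.sum_congr rfl fun i hi => if_pos (Finset.mem_range.1 hi),
        Finset.sum_congr rfl fun i _ => if_neg (show ¬ r + i < r by omega)]
      simp
    rw [h1, ← h]
    ring

/-- **Every natural number is a sum of `n` `n`-gonal numbers**, for every `3 ≤ n`. -/
theorem polygonal_number_theorem {n : ℕ} (hn : 3 ≤ n) (N : ℕ) :
    ∃ f : Fin n → ℕ, ∑ i, ((n - 2) * (f i * (f i - 1) / 2) + f i) = N := by
  obtain ⟨m, rfl⟩ : ∃ m, n = m + 2 := ⟨n - 2, by omega⟩
  obtain ⟨f, hf⟩ := fermat_polygonal (m := m) (by omega) N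
  refine ⟨f, ?_⟩
  rw [← hf]
  refine Finset.sum_congr rfl fun i _ => ?_
  rw [polygonal, Nat.choose_two_right, Nat.add_sub_cancel]

theorem le_polygonal_of_two_le {m k : ℕ} (hk : 2 ≤ k) : m + 2 ≤ polygonal m k := by
  have h1 : 1 ≤ k.choose 2 := Nat.choose_pos hk
  have h2 : m * 1 ≤ m * k.choose 2 := Nat.mul_le_mul_left m h1
  rw [polygonal]
  omega

theorem le_polygonal_of_three_le {m k : ℕ} (hk : 3 ≤ k) : 3 * m + 3 ≤ polygonal m k := by
  have h1 : 3 ≤ k.choose 2 := (Nat.choose_le_choose 2 hk).trans' (by decide)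
  have h2 : m * 3 ≤ m * k.choose 2 := Nat.mul_le_mul_left m h1
  rw [polygonal]
  omega

/-- **The theorem is optimal**: `2 m + 3` is not a sum of `m + 1` polygonal numbers of order
`m + 2`. -/
theorem polygonal_optimal {m : ℕ} (hm : 1 ≤ m) :
    ¬ ∃ f : Fin (m + 1) → ℕ, ∑ i, polygonal m (f i) = 2 * m + 3 := by
  rintro ⟨f, hf⟩
  have hle : ∀ k : ℕ, k < 2 → polygonal m k ≤ 1 := by
    intro k hk
    interval_cases k <;> simp [polygonal]
  by_cases h : ∃ i, 2 ≤ f i
  · obtain ⟨i, hi⟩ := h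
    have hsplit := Finset.add_sum_erase Finset.univ (fun j => polygonal m (f j))
      (Finset.mem_univ i)
    rw [hf] at hsplit
    have h2 := le_polygonal_of_two_le (m := m) hi
    have h3 : polygonal m (f i) = m + 2 := by
      have h4 : f i < 3 := by
        by_contra h5
        have h6 := le_polygonal_of_three_le (m := m) (not_lt.1 h5)
        have h7 : 0 ≤ ∑ j ∈ Finset.univ.erase i, polygonal m (f j) := Nat.zero_le _
        omega
      have h5 : f i = 2 := by omega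
      rw [h5]
      simp [polygonal]
    have h4 : ∑ j ∈ Finset.univ.erase i, polygonal m (f j) ≤
        ∑ _j ∈ Finset.univ.erase i, 1 := by
      refine Finset.sum_le_sum fun j hj => hle _ ?_
      by_contra h5
      have h6 := le_polygonal_of_two_le (m := m) (not_lt.1 h5)
      have h7 := Finset.single_le_sum (f := fun j => polygonal m (f j))
        (fun j _ => Nat.zero_le _) hj
      omega
    rw [Finset.sum_const, Finset.card_erase_of_mem (Finset.mem_univ i), Finset.card_univ,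
      Fintype.card_fin, smul_eq_mul, mul_one] at h4
    omega
  · push Not at h
    have h4 : ∑ j, polygonal m (f j) ≤ ∑ _j : Fin (m + 1), 1 :=
      Finset.sum_le_sum fun j _ => hle _ (h j)
    rw [hf, Finset.sum_const, Finset.card_univ, Fintype.card_fin, smul_eq_mul, mul_one] at h4
    omega

end Fermat.Agent.Cor.ThreeSq
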