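import Mathlib.Data.Int.Basic
import Mathlib.Algebra.Order.Ring.Int
import Mathlib.Tactic

/-!
# Ternary quadratic forms of determinant one (helper56)

Reduction theory (Gauss, Hermite): if `n` is represented by a positive definite integral ternary
form of determinant `1`, then `n` is a sum of three squares. Primitive representations (`u x + v y +
w z = 1` for some `u`, `v`, `w`) give primitive representations.
-/

set_option autoImplicit false

namespace Fermat.Agent.Cor.ThreeSq

/-- The form `a x² + d y² + f z² + 2 b x y + 2 c x z + 2 e y z` with the symmetric matrix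
`(a b c; b d e; c e f)`. -/
def form (a b c d e f x y z : ℤ) : ℤ :=
  a * x ^ 2 + d * y ^ 2 + f * z ^ 2 + 2 * b * x * y + 2 * c * x * z + 2 * e * y * z

/-- Positive definite of determinant one, and represents `n` primitively. -/
structure Good (n a b c d e f : ℤ) : Prop where
  pos : 0 < a
  pos' : 0 < a * d - b ^ 2
  det : a * d * f + 2 * b * c * e - a * e ^ 2 - d * c ^ 2 - f * b ^ 2 = 1
  rep : ∃ x y z : ℤ, form a b c d e f x y z = n ∧ ∃ u v w : ℤ, u * x + v * y + w * z = 1

variable {n a b c d e f : ℤ}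

/-- `x ↦ x + k y`. -/
theorem Good.shear₁ (h : Good n a b c d e f) (k : ℤ) :
    Good n a (b + k * a) c (d + 2 * k * b + k ^ 2 * a) (e + k * c) f where
  pos := h.pos
  pos' := by have := h.pos'; linarith [show a * (d + 2 * k * b + k ^ 2 * a) - (b + k * a) ^ 2 =
    a * d - b ^ 2 by ring]
  det := by rw [← h.det]; ring
  rep := by
    obtain ⟨x, y, z, hx, u, v, w, hu⟩ := h.rep
    exact ⟨x - k * y, y, z, by rw [← hx, form, form]; ring, u, v + k * u, w, by rw [← hu]; ring⟩

/-- `x ↦ x + k z`. -/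
theorem Good.shear₂ (h : Good n a b c d e f) (k : ℤ) :
    Good n a b (c + k * a) d (e + k * b) (f + 2 * k * c + k ^ 2 * a) where
  pos := h.pos
  pos' := h.pos'
  det := by rw [← h.det]; ring
  rep := by
    obtain ⟨x, y, z, hx, u, v, w, hu⟩ := h.rep
    exact ⟨x - k * z, y, z, by rw [← hx, form, form]; ring, u, v, w + k * u, by rw [← hu]; ring⟩

/-- `y ↦ y + k z`. -/
theorem Good.shear₃ (h : Good n a b c d e f) (k : ℤ) :
    Good n a b (c + k * b) d (e + k * d) (f + 2 * k * e + k ^ 2 * d) where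
  pos := h.pos
  pos' := h.pos'
  det := by rw [← h.det]; ring
  rep := by
    obtain ⟨x, y, z, hx, u, v, w, hu⟩ := h.rep
    exact ⟨x, y - k * z, z, by rw [← hx, form, form]; ring, u, v, w + k * v, by rw [← hu]; ring⟩

/-- Exchange of `x` and `y`. -/
theorem Good.swap₁ (h : Good n a b c d e f) : Good n d b e a c f where
  pos := by
    have h1 := h.pos'
    have h2 := h.pos
    nlinarith [sq_nonneg b]
  pos' := by have := h.pos'; linarith [mul_comm a d]
  det := by rw [← h.det]; ring
  rep := by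
    obtain ⟨x, y, z, hx, u, v, w, hu⟩ := h.rep
    exact ⟨y, x, z, by rw [← hx, form, form]; ring, v, u, w, by rw [← hu]; ring⟩

/-- Exchange of `y` and `z`. -/
theorem Good.swap₂ (h : Good n a b c d e f) : Good n a c b f e d where
  pos := h.pos
  pos' := by
    have h1 := h.pos'
    have h2 := h.pos
    have h3 := h.det
    have h4 : (a * d - b ^ 2) * (a * f - c ^ 2) - (a * e - b * c) ^ 2 = a := by
      linear_combination a * h3
    by_contra h5
    push Not at h5
    have h6 : (a * d - b ^ 2) * (a * f - c ^ 2) ≤ 0 := mul_nonpos_of_nonneg_of_nonpos h1.le h5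
    nlinarith [sq_nonneg (a * e - b * c)]
  det := by rw [← h.det]; ring
  rep := by
    obtain ⟨x, y, z, hx, u, v, w, hu⟩ := h.rep
    exact ⟨x, z, y, by rw [← hx, form, form]; ring, u, w, v, by rw [← hu]; ring⟩

/-- Every residue class modulo `a > 0` has a representative of absolute value at most `a / 2`. -/
theorem exists_abs_le {a : ℤ} (ha : 0 < a) (b : ℤ) : ∃ k : ℤ, |2 * (b + k * a)| ≤ a := by
  refine ⟨-((2 * b + a) / (2 * a)), ?_⟩
  have h1 := Int.emod_add_mul_ediv (2 * b + a) (2 * a)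
  have h2 := Int.emod_nonneg (2 * b + a) (by omega : (2 * a) ≠ 0)
  have h3 := Int.emod_lt_of_pos (2 * b + a) (by omega : 0 < 2 * a)
  have h4 : 2 * (b + -((2 * b + a) / (2 * a)) * a) = (2 * b + a) % (2 * a) - a := by
    linear_combination -h1
  rw [h4, abs_le]
  constructor <;> linarith

/-- A reduced form of determinant one is the sum of three squares. -/
theorem Good.eq_one (h : Good n a b c d e f) (hb : |2 * b| ≤ a) (hc : |2 * c| ≤ a)
    (hB : |2 * (a * e - b * c)| ≤ a * d - b ^ 2) (had : a ≤ d)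
    (hAC : a * d - b ^ 2 ≤ a * f - c ^ 2) :
    ∃ x y z : ℤ, x ^ 2 + y ^ 2 + z ^ 2 = n ∧ ∃ u v w : ℤ, u * x + v * y + w * z = 1 := by
  obtain ⟨ha, hA, hdet, x, y, z, hx, huvw⟩ := h
  set A : ℤ := a * d - b ^ 2 with hAdef
  set B : ℤ := a * e - b * c with hBdef
  set C : ℤ := a * f - c ^ 2 with hCdef
  have hABC : A * C - B ^ 2 = a := by
    rw [hAdef, hBdef, hCdef]; linear_combination a * hdet
  have hb2 : 4 * b ^ 2 ≤ a ^ 2 := by
    have := sq_le_sq' (abs_le.1 hb).1 (abs_le.1 hb).2
    linarith [show (2 * b) ^ 2 = 4 * b ^ 2 by ring]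
  have hB2 : 4 * B ^ 2 ≤ A ^ 2 := by
    have := sq_le_sq' (abs_le.1 hB).1 (abs_le.1 hB).2
    linarith [show (2 * B) ^ 2 = 4 * B ^ 2 by ring]
  have h1 : 3 * a ^ 2 ≤ 4 * A := by
    have : a * a ≤ a * d := mul_le_mul_of_nonneg_left had ha.le
    nlinarith
  have h2 : 3 * A ^ 2 ≤ 4 * a := by
    have : A * A ≤ A * C := mul_le_mul_of_nonneg_left hAC hA.le
    nlinarith
  have ha1 : a = 1 := by
    by_contra hne
    have ha2 : 2 ≤ a := by omega
    have h3 : 3 * a ≤ 2 * A := by nlinarith
    have h4 : 27 * a ^ 2 ≤ 16 * a := by nlinarith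
    nlinarith
  have hA1 : A = 1 := by
    by_contra hne
    have : 2 ≤ A := by omega
    nlinarith
  have hb0 : b = 0 := by
    rw [ha1, abs_le] at hb
    omega
  have hc0 : c = 0 := by
    rw [ha1, abs_le] at hc
    omega
  have hB0 : B = 0 := by
    rw [hA1, abs_le] at hB
    omega
  have hd1 : d = 1 := by
    rw [ha1, hb0] at hAdef
    linarith
  have he0 : e = 0 := by
    rw [ha1, hb0] at hBdef
    linarith
  have hf1 : f = 1 := by
    rw [hA1, hB0, ha1, hCdef, ha1, hc0] at hABC
    linarith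
  refine ⟨x, y, z, ?_, huvw⟩
  rw [← hx, ha1, hb0, hc0, hd1, he0, hf1, form]
  ring

/-- **Reduction**: a number represented (primitively) by a positive definite ternary form of
determinant one is a sum of three (coprime) squares. -/
theorem Good.exists_sq (h : Good n a b c d e f) :
    ∃ x y z : ℤ, x ^ 2 + y ^ 2 + z ^ 2 = n ∧ ∃ u v w : ℤ, u * x + v * y + w * z = 1 := by
  induction hN : a.toNat using Nat.strong_induction_on generalizing a b c d e f with
  | _ N ih =>
  induction hM : (a * d - b ^ 2).toNat using Nat.strong_induction_on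
    generalizing a b c d e f with
  | _ M ih' =>
  -- first shear
  obtain ⟨k, hk⟩ := exists_abs_le h.pos b
  have g1 := h.shear₁ k
  set b₁ := b + k * a with hb₁
  set d₁ := d + 2 * k * b + k ^ 2 * a with hd₁
  set e₁ := e + k * c with he₁
  have hM1 : a * d₁ - b₁ ^ 2 = a * d - b ^ 2 := by rw [hd₁, hb₁]; ring
  -- third shear
  obtain ⟨l, hl⟩ := exists_abs_le g1.pos' (a * e₁ - b₁ * c)
  have g2 := g1.shear₃ l
  set c₂ := c + l * b₁ with hc₂
  set e₂ := e₁ + l * d₁ with he₂
  set f₂ := f + 2 * l * e₁ + l ^ 2 * d₁ with hf₂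
  have hB2 : a * e₂ - b₁ * c₂ = a * e₁ - b₁ * c + l * (a * d₁ - b₁ ^ 2) := by
    rw [he₂, hc₂]; ring
  -- second shear
  obtain ⟨m, hm⟩ := exists_abs_le h.pos c₂
  have g3 := g2.shear₂ m
  set c₃ := c₂ + m * a with hc₃
  set e₃ := e₂ + m * b₁ with he₃
  set f₃ := f₂ + 2 * m * c₂ + m ^ 2 * a with hf₃
  have hB3 : a * e₃ - b₁ * c₃ = a * e₂ - b₁ * c₂ := by rw [he₃, hc₃]; ring
  by_cases had : d₁ < a
  · have hpos := g3.swap₁.pos
    exact ih d₁.toNat (by rw [← hN]; omega) g3.swap₁ rfl
  · by_cases hAC : a * f₃ - c₃ ^ 2 < a * d₁ - b₁ ^ 2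
    · have hpos := g3.swap₂.pos'
      exact ih' (a * f₃ - c₃ ^ 2).toNat (by rw [← hM, ← hM1]; omega) g3.swap₂ hN rfl
    · refine g3.eq_one hk hm ?_ (not_lt.1 had) (not_lt.1 hAC)
      rw [hB3, hB2]
      exact hl

end Fermat.Agent.Cor.ThreeSq
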